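import Mathlib
import Fermat.Agent.S41.Spec.PD

/-!
# Row S41, block PD, leaf CUSP (helper769): CUSP-3 and CUSP-4

* `cuspSumIndep : Spec.CuspSumIndepStatement` — sums of class functions over two cusp systems agree;
* `cuspSystemConjDelta : Spec.CuspSystemConjDeltaStatement` — `c_δ` maps cusp systems of `Γ₀(N q)` to
  cusp systems of `Γ' = δ Γ₀(N q) δ⁻¹`.

Reusable: `isCuspSystem_map_equiv` (transport of cusp systems along an isomorphism of subgroups
preserving positive parabolic elements), `conjDeltaR_injective`, `isPosParabolic_conjDeltaR_iff`.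
-/

set_option autoImplicit false

namespace Fermat.Agent.S41.H769

open CongruenceSubgroup Matrix.SpecialLinearGroup ModularGroup
open Fermat.Agent.S41.Spec
open scoped MatrixGroups

universe u

/-! ## CUSP-3 -/

/-- (CUSP-3) sums of class functions over two cusp systems agree. -/
theorem cuspSumIndep : CuspSumIndepStatement.{u} := by
  intro Γ A _ ζ hζ ι ι' _ _ γ γ' hγ hγ'
  classical
  have hf : ∀ i : ι, ∃! i' : ι', ∃ g : Γ, g * γ' i' * g⁻¹ = γ i :=
    fun i => hγ'.2 (γ i) (hγ.1 i)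
  have hf' : ∀ i' : ι', ∃! i : ι, ∃ g : Γ, g * γ i * g⁻¹ = γ' i' :=
    fun i' => hγ.2 (γ' i') (hγ'.1 i')
  choose f hf1 hf2 using hf
  choose f' hf'1 hf'2 using hf'
  have hleft : ∀ i, f' (f i) = i := by
    intro i
    obtain ⟨g₁, hg₁⟩ := hf1 i
    obtain ⟨g₂, hg₂⟩ := hf'1 (f i)
    have huniq := (hγ.2 (γ i) (hγ.1 i)).unique (y₁ := f' (f i)) (y₂ := i)
      ⟨g₁ * g₂, by rw [← hg₁, ← hg₂]; group⟩ ⟨1, by group⟩
    exact huniq
  have hright : ∀ i', f (f' i') = i' := by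
    intro i'
    obtain ⟨g₁, hg₁⟩ := hf'1 i'
    obtain ⟨g₂, hg₂⟩ := hf1 (f' i')
    have huniq := (hγ'.2 (γ' i') (hγ'.1 i')).unique (y₁ := f (f' i')) (y₂ := i')
      ⟨g₁ * g₂, by rw [← hg₁, ← hg₂]; group⟩ ⟨1, by group⟩
    exact huniq
  let e : ι ≃ ι' := ⟨f, f', hleft, hright⟩
  refine Fintype.sum_equiv e _ _ (fun i => ?_)
  obtain ⟨g, hg⟩ := hf1 i
  show ζ (γ i) = ζ (γ' (f i))
  rw [← hg]
  exact hζ g (γ' (f i)) (hγ'.1 (f i)).1

/-! ## Transport of cusp systems along isomorphisms -/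

/-- Transport of primitivity along an isomorphism preserving positive parabolic elements. -/
theorem isPrimPosParabolic_map_equiv {Γ Γ' : Subgroup SL(2, ℤ)} (e : Γ ≃* Γ')
    (hpos : ∀ γ : Γ, IsPosParabolic ((e γ : Γ') : SL(2, ℤ)) ↔ IsPosParabolic (γ : SL(2, ℤ)))
    (γ : Γ) : IsPrimPosParabolic Γ' (e γ) ↔ IsPrimPosParabolic Γ γ := by
  constructor
  · rintro ⟨h1, h2⟩
    refine ⟨(hpos γ).1 h1, fun γ' k hγ' hk => ?_⟩
    exact h2 (e γ') k ((hpos γ').2 hγ') (by rw [← map_pow, hk])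
  · rintro ⟨h1, h2⟩
    refine ⟨(hpos γ).2 h1, fun γ' k hγ' hk => ?_⟩
    refine h2 (e.symm γ') k ((hpos _).1 (by simpa using hγ')) ?_
    apply e.injective
    rw [map_pow, e.apply_symm_apply, hk]

/-- Transport of cusp systems along an isomorphism preserving positive parabolic elements. -/
theorem isCuspSystem_map_equiv {Γ Γ' : Subgroup SL(2, ℤ)} (e : Γ ≃* Γ')
    (hpos : ∀ γ : Γ, IsPosParabolic ((e γ : Γ') : SL(2, ℤ)) ↔ IsPosParabolic (γ : SL(2, ℤ)))
    {ι : Type} (γ : ι → Γ) (h : IsCuspSystem Γ γ) : IsCuspSystem Γ' (fun i => e (γ i)) := by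
  refine ⟨fun i => (isPrimPosParabolic_map_equiv e hpos (γ i)).2 (h.1 i), fun γ' hγ' => ?_⟩
  have hγ'' : IsPrimPosParabolic Γ (e.symm γ') := by
    rw [← isPrimPosParabolic_map_equiv e hpos, e.apply_symm_apply]
    exact hγ'
  obtain ⟨i, ⟨g, hg⟩, huniq⟩ := h.2 (e.symm γ') hγ''
  refine ⟨i, ⟨e g, ?_⟩, fun j hj => ?_⟩
  · show e g * e (γ i) * (e g)⁻¹ = γ'
    rw [← map_inv, ← map_mul, ← map_mul, hg, e.apply_symm_apply]
  · obtain ⟨g', hg'⟩ := hj
    refine huniq j ⟨e.symm g', ?_⟩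
    apply e.injective
    rw [map_mul, map_mul, map_inv, e.apply_symm_apply, e.apply_symm_apply]
    exact hg'

/-! ## CUSP-4 -/

theorem coe_conjDeltaR (N q : ℕ) (γ : Gamma0 (N * q)) :
    (((conjDeltaR N q γ : gamma0Delta N q) : SL(2, ℤ)) : Matrix (Fin 2) (Fin 2) ℤ) =
      conjDeltaMatrix q (γ : SL(2, ℤ)) := rfl

theorem conjDeltaR_injective (N q : ℕ) (hq : q ≠ 0) : Function.Injective (conjDeltaR N q) := by
  intro γ γ' h
  have hq' : (q : ℤ) ≠ 0 := by exact_mod_cast hq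
  have hm : conjDeltaMatrix q (γ : SL(2, ℤ)) = conjDeltaMatrix q (γ' : SL(2, ℤ)) := by
    rw [← coe_conjDeltaR, ← coe_conjDeltaR, h]
  obtain ⟨k, hk⟩ := (dvd_of_mem_gamma0_mul γ).1
  obtain ⟨k', hk'⟩ := (dvd_of_mem_gamma0_mul γ').1
  have h00 := congrFun (congrFun hm 0) 0
  have h01 := congrFun (congrFun hm 0) 1
  have h10 := congrFun (congrFun hm 1) 0
  have h11 := congrFun (congrFun hm 1) 1
  simp only [conjDeltaMatrix, Matrix.of_apply, Matrix.cons_val', Matrix.cons_val_zero,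
    Matrix.cons_val_one, Matrix.cons_val_fin_one] at h00 h01 h10 h11
  rw [hk, hk', Int.mul_ediv_cancel_left _ hq', Int.mul_ediv_cancel_left _ hq'] at h10
  apply Subtype.ext
  apply Subtype.ext
  ext i j
  fin_cases i <;> fin_cases j
  · exact h00
  · exact mul_left_cancel₀ hq' h01
  · show (γ : SL(2, ℤ)) 1 0 = (γ' : SL(2, ℤ)) 1 0
    rw [hk, hk', h10]
  · exact h11

theorem isPosParabolic_conjDeltaR_iff (N q : ℕ) (hq : q ≠ 0) (γ : Gamma0 (N * q)) :
    IsPosParabolic ((conjDeltaR N q γ : gamma0Delta N q) : SL(2, ℤ)) ↔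
      IsPosParabolic (γ : SL(2, ℤ)) := by
  have hq' : (0 : ℤ) < q := by exact_mod_cast Nat.pos_of_ne_zero hq
  obtain ⟨k, hk⟩ := (dvd_of_mem_gamma0_mul γ).1
  have hne : ((conjDeltaR N q γ : gamma0Delta N q) : SL(2, ℤ)) ≠ 1 ↔ (γ : SL(2, ℤ)) ≠ 1 := by
    rw [not_iff_not]
    constructor
    · intro h
      have h1 : conjDeltaR N q γ = 1 := Subtype.ext h
      have h2 : γ = 1 := conjDeltaR_injective N q hq (by rw [h1, map_one])
      rw [h2]; rfl
    · intro h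
      have h2 : γ = 1 := Subtype.ext h
      rw [h2, map_one]; rfl
  have e00 : ((conjDeltaR N q γ : gamma0Delta N q) : SL(2, ℤ)) 0 0 = (γ : SL(2, ℤ)) 0 0 := rfl
  have e01 : ((conjDeltaR N q γ : gamma0Delta N q) : SL(2, ℤ)) 0 1 = q * (γ : SL(2, ℤ)) 0 1 := rfl
  have e10 : ((conjDeltaR N q γ : gamma0Delta N q) : SL(2, ℤ)) 1 0 = (γ : SL(2, ℤ)) 1 0 / q := rfl
  have e11 : ((conjDeltaR N q γ : gamma0Delta N q) : SL(2, ℤ)) 1 1 = (γ : SL(2, ℤ)) 1 1 := rfl
  unfold IsPosParabolic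
  rw [hne, Matrix.trace_fin_two, Matrix.trace_fin_two, e00, e01, e10, e11, hk,
    Int.mul_ediv_cancel_left _ hq'.ne']
  constructor
  · rintro ⟨h1, h2, h3, h4⟩
    exact ⟨h1, h2, le_of_mul_le_mul_left (by simpa using h3) hq', by nlinarith⟩
  · rintro ⟨h1, h2, h3, h4⟩
    exact ⟨h1, h2, mul_nonneg hq'.le h3, by nlinarith⟩

/-- (CUSP-4) `c_δ` maps cusp systems of `Γ₀(N q)` to cusp systems of `Γ' = δ Γ₀(N q) δ⁻¹`. -/
theorem cuspSystemConjDelta : CuspSystemConjDeltaStatement := by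
  intro N q _ hq ι γ hγ
  let e : Gamma0 (N * q) ≃* gamma0Delta N q :=
    MulEquiv.ofBijective (conjDeltaR N q)
      ⟨conjDeltaR_injective N q hq, MonoidHom.rangeRestrict_surjective _⟩
  exact isCuspSystem_map_equiv e (fun γ => isPosParabolic_conjDeltaR_iff N q hq γ) γ hγ

end Fermat.Agent.S41.H769
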