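import Mathlib
import Fermat.Agent.S41.Spec.PD
import Fermat.Agent.S21.H585.Parabolic

/-!
# Row S41, block PD, leaf CUSP (helper769): CUSP-1 and CUSP-2

* `tOrbitSystemExists : Spec.TOrbitSystemExistsStatement` — `T`-orbit systems exist;
* `tOrbitCusp : Spec.TOrbitCuspStatement` — a `T`-orbit system is a cusp system (`-1 ∈ Γ`).

Reusable lemmas: `coe_conj_T_zpow` (entries of `h⁻¹ T^k h`), `isPosParabolic_conj_T_zpow_iff`
(`h⁻¹ T^k h` positive parabolic `↔ 0 < k`), `exists_conj_of_isPosParabolic` (classification),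
`eq_of_mul_T_zpow_eq`, `eq_of_conj_T_zpow_eq` (rigidity: the centraliser of `T^a` is `± ⟨T⟩`),
`IsTOrbitSystem_mem_iff_dvd` (`hᵢ⁻¹ T^k hᵢ ∈ Γ ↔ wᵢ ∣ k`), `mk_neg_eq`, `mk_T_zpow_mul_eq_iff`.
-/

set_option autoImplicit false

namespace Fermat.Agent.S41.H769

open CongruenceSubgroup Matrix.SpecialLinearGroup ModularGroup
open Fermat.Agent.S41.Spec
open scoped MatrixGroups

universe u

/-! ## Matrix lemmas -/

theorem sl2_det_entries (h : SL(2, ℤ)) : h 0 0 * h 1 1 - h 0 1 * h 1 0 = 1 := by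
  have := h.det_coe
  rwa [Matrix.det_fin_two] at this

/-- Entries of `h⁻¹ T^k h`. -/
theorem coe_conj_T_zpow (h : SL(2, ℤ)) (k : ℤ) :
    ((h⁻¹ * T ^ k * h : SL(2, ℤ)) : Matrix (Fin 2) (Fin 2) ℤ) =
      !![1 + k * h 1 0 * h 1 1, k * h 1 1 ^ 2; -(k * h 1 0 ^ 2), 1 - k * h 1 0 * h 1 1] := by
  have hdet := sl2_det_entries h
  rw [Matrix.SpecialLinearGroup.coe_mul, Matrix.SpecialLinearGroup.coe_mul, coe_T_zpow,
    Matrix.SpecialLinearGroup.coe_inv, Matrix.adjugate_fin_two]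
  ext i j
  fin_cases i <;> fin_cases j <;>
    simp [Matrix.mul_apply, Fin.sum_univ_two] <;>
    first
      | linear_combination (1 : ℤ) * hdet
      | linear_combination (-1 : ℤ) * hdet
      | ring

theorem conj_T_zpow_apply_01 (h : SL(2, ℤ)) (k : ℤ) :
    (h⁻¹ * T ^ k * h : SL(2, ℤ)) 0 1 = k * h 1 1 ^ 2 := by
  have := congrFun (congrFun (coe_conj_T_zpow h k) 0) 1
  simpa using this

theorem conj_T_zpow_apply_10 (h : SL(2, ℤ)) (k : ℤ) :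
    (h⁻¹ * T ^ k * h : SL(2, ℤ)) 1 0 = -(k * h 1 0 ^ 2) := by
  have := congrFun (congrFun (coe_conj_T_zpow h k) 1) 0
  simpa using this

theorem conj_T_zpow_trace (h : SL(2, ℤ)) (k : ℤ) :
    ((h⁻¹ * T ^ k * h : SL(2, ℤ)) : Matrix (Fin 2) (Fin 2) ℤ).trace = 2 := by
  rw [coe_conj_T_zpow, Matrix.trace_fin_two_of]
  ring

theorem T_zpow_injective : Function.Injective (fun k : ℤ => (T ^ k : SL(2, ℤ))) := by
  intro a b hab
  have h1 : ((T ^ a : SL(2, ℤ)) : Matrix (Fin 2) (Fin 2) ℤ) 0 1 =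
      ((T ^ b : SL(2, ℤ)) : Matrix (Fin 2) (Fin 2) ℤ) 0 1 := by
    simp only at hab
    rw [hab]
  simpa [coe_T_zpow] using h1

theorem conj_T_zpow_eq_one_iff (h : SL(2, ℤ)) (k : ℤ) :
    (h⁻¹ * T ^ k * h : SL(2, ℤ)) = 1 ↔ k = 0 := by
  constructor
  · intro hk
    have h1 : (T ^ k : SL(2, ℤ)) = T ^ (0 : ℤ) := by
      have : (T ^ k : SL(2, ℤ)) = h * (h⁻¹ * T ^ k * h) * h⁻¹ := by group
      rw [this, hk]; group
    exact T_zpow_injective h1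
  · rintro rfl
    group

/-- `h⁻¹ T^k h` is positive parabolic iff `k > 0`. -/
theorem isPosParabolic_conj_T_zpow_iff (h : SL(2, ℤ)) (k : ℤ) :
    IsPosParabolic (h⁻¹ * T ^ k * h) ↔ 0 < k := by
  have hdet := sl2_det_entries h
  unfold IsPosParabolic
  rw [conj_T_zpow_trace, conj_T_zpow_apply_01, conj_T_zpow_apply_10, Ne,
    conj_T_zpow_eq_one_iff]
  constructor
  · rintro ⟨h0, -, h1, h2⟩
    by_contra hk
    have hk' : k < 0 := lt_of_le_of_ne (not_lt.mp hk) h0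
    have hs : h 1 1 ^ 2 = 0 := by nlinarith [sq_nonneg (h 1 1)]
    have hr : h 1 0 ^ 2 = 0 := by nlinarith [sq_nonneg (h 1 0)]
    have hs' : h 1 1 = 0 := pow_eq_zero_iff (two_ne_zero) |>.mp hs
    have hr' : h 1 0 = 0 := pow_eq_zero_iff (two_ne_zero) |>.mp hr
    rw [hs', hr'] at hdet
    simp at hdet
  · intro hk
    refine ⟨hk.ne', rfl, ?_, ?_⟩
    · positivity
    · have : 0 ≤ k * h 1 0 ^ 2 := by positivity
      linarith

/-- Classification of positive parabolic elements. -/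
theorem exists_conj_of_isPosParabolic (g : SL(2, ℤ)) (hg : IsPosParabolic g) :
    ∃ (h : SL(2, ℤ)) (k : ℤ), 0 < k ∧ g = h⁻¹ * T ^ k * h := by
  obtain ⟨a, k, hak⟩ := Fermat.Agent.S21.H585.exists_mul_eq_mul_T_zpow g hg.2.1
  have hg' : g = (a⁻¹)⁻¹ * T ^ k * a⁻¹ := by
    rw [inv_inv, ← hak]; group
  refine ⟨a⁻¹, k, ?_, hg'⟩
  rw [← isPosParabolic_conj_T_zpow_iff a⁻¹ k, ← hg']
  exact hg

/-- Rigidity: `u T^a = T^b u`, `a ≠ 0` forces `a = b` and `u = ± T^n`. -/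
theorem eq_of_mul_T_zpow_eq (u : SL(2, ℤ)) (a b : ℤ) (ha : a ≠ 0)
    (h : u * T ^ a = T ^ b * u) : a = b ∧ ∃ n : ℤ, u = T ^ n ∨ u = -T ^ n := by
  have hdet := sl2_det_entries u
  have hm : ((u * T ^ a : SL(2, ℤ)) : Matrix (Fin 2) (Fin 2) ℤ) =
      ((T ^ b * u : SL(2, ℤ)) : Matrix (Fin 2) (Fin 2) ℤ) := by rw [h]
  rw [Matrix.SpecialLinearGroup.coe_mul, Matrix.SpecialLinearGroup.coe_mul, coe_T_zpow,
    coe_T_zpow] at hm
  have h01 := congrFun (congrFun hm 0) 1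
  have h11 := congrFun (congrFun hm 1) 1
  simp [Matrix.mul_apply, Fin.sum_univ_two] at h01 h11
  have hr : u 1 0 = 0 := by
    rcases h11 with h11 | h11
    · exact h11
    · exact absurd h11 ha
  rw [hr] at hdet
  have hps : u 0 0 * u 1 1 = 1 := by linear_combination hdet
  rcases Int.eq_one_or_neg_one_of_mul_eq_one' hps with ⟨hp, hs⟩ | ⟨hp, hs⟩
  · rw [hp, hs] at h01
    refine ⟨by linarith, u 0 1, Or.inl ?_⟩
    apply Subtype.ext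
    rw [coe_T_zpow]
    ext i j
    fin_cases i <;> fin_cases j <;> simp [hp, hs, hr]
  · rw [hp, hs] at h01
    refine ⟨by linarith, -u 0 1, Or.inr ?_⟩
    apply Subtype.ext
    rw [Matrix.SpecialLinearGroup.coe_neg, coe_T_zpow]
    ext i j
    fin_cases i <;> fin_cases j <;> simp [hp, hs, hr]

/-- Two conjugates `h⁻¹ T^a h = h'⁻¹ T^b h'` (`a ≠ 0`): `a = b` and `h' = ± T^n h`. -/
theorem eq_of_conj_T_zpow_eq (h h' : SL(2, ℤ)) (a b : ℤ) (ha : a ≠ 0)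
    (he : h⁻¹ * T ^ a * h = h'⁻¹ * T ^ b * h') :
    a = b ∧ ∃ n : ℤ, h' = T ^ n * h ∨ h' = -(T ^ n * h) := by
  have hu : (h' * h⁻¹) * T ^ a = T ^ b * (h' * h⁻¹) := by
    have : T ^ a = h * (h⁻¹ * T ^ a * h) * h⁻¹ := by group
    rw [this, he]; group
  obtain ⟨hab, n, hn | hn⟩ := eq_of_mul_T_zpow_eq _ a b ha hu
  · refine ⟨hab, n, Or.inl ?_⟩
    rw [← hn]; group
  · refine ⟨hab, n, Or.inr ?_⟩
    rw [← neg_mul, ← hn]; group

theorem conj_inv_zpow {G : Type*} [Group G] (h b : G) (n : ℤ) :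
    (h⁻¹ * b * h) ^ n = h⁻¹ * b ^ n * h := by
  have := conj_zpow (a := h⁻¹) (b := b) (i := n)
  simpa using this

theorem conj_inv_pow {G : Type*} [Group G] (h b : G) (n : ℕ) :
    (h⁻¹ * b * h) ^ n = h⁻¹ * b ^ n * h := by
  have := conj_pow (a := h⁻¹) (b := b) (i := n)
  simpa using this

/-! ## Quotient lemmas -/

theorem mk_neg_eq (Γ : Subgroup SL(2, ℤ)) (hneg : (-1 : SL(2, ℤ)) ∈ Γ) (g : SL(2, ℤ)) :
    (((-g : SL(2, ℤ)) : SL(2, ℤ)) : SL(2, ℤ) ⧸ Γ) = ((g : SL(2, ℤ)) : SL(2, ℤ) ⧸ Γ) := by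
  rw [QuotientGroup.eq]
  have : (-g)⁻¹ * g = -1 := by
    rw [inv_neg, neg_mul, inv_mul_cancel]
  rw [this]
  exact hneg

theorem mk_T_zpow_mul_eq_iff (Γ : Subgroup SL(2, ℤ)) (h : SL(2, ℤ)) (a b : ℤ) :
    (((T ^ a * h : SL(2, ℤ)) : SL(2, ℤ)) : SL(2, ℤ) ⧸ Γ) = ((T ^ b * h : SL(2, ℤ)) : SL(2, ℤ) ⧸ Γ) ↔
      h⁻¹ * T ^ (b - a) * h ∈ Γ := by
  rw [QuotientGroup.eq]
  have : (T ^ a * h)⁻¹ * (T ^ b * h) = h⁻¹ * T ^ (b - a) * h := by
    rw [zpow_sub]; group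
  rw [this]


/-! ## `T`-orbit systems -/

section OrbitSystem

variable {Γ : Subgroup SL(2, ℤ)} {ι : Type} {γ : ι → Γ} {h : ι → SL(2, ℤ)} {w : ι → ℕ}

/-- (P1) the period set of `hᵢ Γ` is `wᵢ ℤ`. -/
theorem IsTOrbitSystem_mem_iff_dvd (hsys : IsTOrbitSystem Γ γ h w) (i : ι) (k : ℤ) :
    (h i)⁻¹ * T ^ k * h i ∈ Γ ↔ (w i : ℤ) ∣ k := by
  obtain ⟨hw, hγ, hX⟩ := hsys
  have hwi : (0 : ℤ) < w i := by exact_mod_cast hw i
  have hmem : ∀ n : ℤ, (h i)⁻¹ * T ^ ((w i : ℤ) * n) * h i ∈ Γ := by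
    intro n
    have h1 : (h i)⁻¹ * T ^ ((w i : ℤ) * n) * h i = ((γ i : Γ) : SL(2, ℤ)) ^ n := by
      rw [hγ i, conj_inv_zpow, zpow_mul, zpow_natCast]
    rw [h1]
    exact Γ.zpow_mem (γ i).2 n
  constructor
  · intro hk
    obtain ⟨n, j, hkd, hj0, hj1⟩ : ∃ n j : ℤ, k = (w i : ℤ) * n + j ∧ 0 ≤ j ∧ j < w i :=
      ⟨k / (w i : ℤ), k % (w i : ℤ), (Int.mul_ediv_add_emod k (w i)).symm,
        Int.emod_nonneg _ hwi.ne', Int.emod_lt_of_pos _ hwi⟩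
    subst hkd
    have hjmem : (h i)⁻¹ * T ^ j * h i ∈ Γ := by
      have h1 : (h i)⁻¹ * T ^ j * h i =
          ((h i)⁻¹ * T ^ ((w i : ℤ) * n) * h i)⁻¹ *
            ((h i)⁻¹ * T ^ ((w i : ℤ) * n + j) * h i) := by
        rw [zpow_add]
        group
      rw [h1]
      exact Γ.mul_mem (Γ.inv_mem (hmem _)) hk
    -- both `(i, 0)` and `(i, j)` represent `hᵢ Γ`
    obtain ⟨p, -, hp⟩ := hX ((h i : SL(2, ℤ)) : SL(2, ℤ) ⧸ Γ)
    have e0 := hp ⟨i, ⟨0, hw i⟩⟩ (by simp)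
    have hlt : j.toNat < w i := by
      have : (j.toNat : ℤ) < w i := by rwa [Int.toNat_of_nonneg hj0]
      exact_mod_cast this
    have e1 := hp ⟨i, ⟨j.toNat, hlt⟩⟩ (by
      show ((h i : SL(2, ℤ)) : SL(2, ℤ) ⧸ Γ) = ((T ^ j.toNat * h i : SL(2, ℤ)) : _)
      have h2 := (mk_T_zpow_mul_eq_iff Γ (h i) 0 j).2 (by simpa using hjmem)
      rw [zpow_zero, one_mul] at h2
      rw [h2, ← zpow_natCast, Int.toNat_of_nonneg hj0])
    have e2 : (⟨i, ⟨j.toNat, hlt⟩⟩ : Σ i, Fin (w i)) = ⟨i, ⟨0, hw i⟩⟩ := by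
      rw [e0, e1]
    have e3 : j.toNat = 0 := by
      have := congrArg (fun p : Σ i, Fin (w i) => (p.2 : ℕ)) e2
      simpa using this
    have e4 : j = 0 := by
      have := Int.toNat_of_nonneg hj0
      rw [e3] at this
      exact_mod_cast this.symm
    rw [e4, add_zero]
    exact dvd_mul_right _ _
  · rintro ⟨n, rfl⟩
    exact hmem n

/-- (P2) the `γᵢ` are positive parabolic. -/
theorem IsTOrbitSystem_isPosParabolic (hsys : IsTOrbitSystem Γ γ h w) (i : ι) :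
    IsPosParabolic ((γ i : Γ) : SL(2, ℤ)) := by
  rw [hsys.2.1 i, ← zpow_natCast, isPosParabolic_conj_T_zpow_iff]
  exact_mod_cast hsys.1 i

/-- (P3) the `γᵢ` are primitive. -/
theorem IsTOrbitSystem_isPrimPosParabolic (hsys : IsTOrbitSystem Γ γ h w) (i : ι) :
    IsPrimPosParabolic Γ (γ i) := by
  refine ⟨IsTOrbitSystem_isPosParabolic hsys i, fun γ' k hγ' hk => ?_⟩
  have hwi : (0 : ℤ) < w i := by exact_mod_cast hsys.1 i
  obtain ⟨g, k', hk', hg⟩ := exists_conj_of_isPosParabolic _ hγ'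
  have h1 : (h i)⁻¹ * T ^ (w i : ℤ) * h i = g⁻¹ * T ^ (k' * (k : ℤ)) * g := by
    have e1 : ((γ i : Γ) : SL(2, ℤ)) = ((γ' : Γ) : SL(2, ℤ)) ^ k := by
      rw [← hk]; rfl
    rw [zpow_natCast, ← hsys.2.1 i, e1, hg, conj_inv_pow, zpow_mul, zpow_natCast]
  obtain ⟨hab, n, hn⟩ := eq_of_conj_T_zpow_eq (h i) g _ _ hwi.ne' h1
  have h2 : ((γ' : Γ) : SL(2, ℤ)) = (h i)⁻¹ * T ^ k' * h i := by
    rw [hg]
    rcases hn with hn | hn
    · rw [hn]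
      have : (T ^ n * h i)⁻¹ * T ^ k' * (T ^ n * h i) =
          (h i)⁻¹ * (T ^ (-n) * T ^ k' * T ^ n) * h i := by group
      rw [this, ← zpow_add, ← zpow_add]
      congr 2
      ring_nf
    · rw [hn, inv_neg, neg_mul, neg_mul, mul_neg, neg_neg]
      have : (T ^ n * h i)⁻¹ * T ^ k' * (T ^ n * h i) =
          (h i)⁻¹ * (T ^ (-n) * T ^ k' * T ^ n) * h i := by group
      rw [this, ← zpow_add, ← zpow_add]
      congr 2
      ring_nf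
  have h3 : (w i : ℤ) ∣ k' := by
    rw [← IsTOrbitSystem_mem_iff_dvd hsys i k', ← h2]
    exact γ'.2
  obtain ⟨m, hm⟩ := h3
  have h4 : m * (k : ℤ) = 1 := by
    have : (w i : ℤ) * (m * (k : ℤ)) = (w i : ℤ) * 1 := by
      rw [mul_one, ← mul_assoc, ← hm, ← hab]
    exact mul_left_cancel₀ hwi.ne' this
  have hk0 : (0 : ℤ) ≤ k := by positivity
  rcases Int.eq_one_or_neg_one_of_mul_eq_one' h4 with ⟨-, hk1⟩ | ⟨-, hk1⟩
  · exact_mod_cast hk1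
  · omega


/-- (P4) every primitive positive parabolic element of `Γ` is conjugate to some `γᵢ`. -/
theorem IsTOrbitSystem_exists_conj (hsys : IsTOrbitSystem Γ γ h w) (γ' : Γ)
    (hγ' : IsPrimPosParabolic Γ γ') : ∃ i, ∃ g : Γ, g * γ i * g⁻¹ = γ' := by
  obtain ⟨g, k, hk, hg⟩ := exists_conj_of_isPosParabolic _ hγ'.1
  obtain ⟨p, hp, -⟩ := hsys.2.2 ((g : SL(2, ℤ)) : SL(2, ℤ) ⧸ Γ)
  obtain ⟨i, j⟩ := p
  -- `β = (T^j hᵢ)⁻¹ g ∈ Γ`
  have hβ : (T ^ (j : ℕ) * h i)⁻¹ * g ∈ Γ := by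
    rw [← QuotientGroup.eq]
    exact hp.symm
  set β : Γ := ⟨(T ^ (j : ℕ) * h i)⁻¹ * g, hβ⟩ with hβdef
  have hgβ : g = T ^ (j : ℕ) * h i * (β : SL(2, ℤ)) := by
    rw [hβdef]; group
  -- `β γ' β⁻¹ = hᵢ⁻¹ T^k hᵢ`
  have h1 : (h i)⁻¹ * T ^ k * h i = ((β * γ' * β⁻¹ : Γ) : SL(2, ℤ)) := by
    have e1 : ((β * γ' * β⁻¹ : Γ) : SL(2, ℤ)) =
        (β : SL(2, ℤ)) * (g⁻¹ * T ^ k * g) * (β : SL(2, ℤ))⁻¹ := by
      rw [← hg]; rfl
    rw [e1]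
    conv_rhs => rw [hgβ]
    have : (β : SL(2, ℤ)) * ((T ^ (j : ℕ) * h i * (β : SL(2, ℤ)))⁻¹ * T ^ k *
        (T ^ (j : ℕ) * h i * (β : SL(2, ℤ)))) * (β : SL(2, ℤ))⁻¹ =
        (h i)⁻¹ * ((T ^ (j : ℕ))⁻¹ * T ^ k * T ^ (j : ℕ)) * h i := by group
    rw [this, ← zpow_natCast, ← zpow_neg, ← zpow_add, ← zpow_add]
    congr 2
    ring_nf
  have h2 : (w i : ℤ) ∣ k := by
    rw [← IsTOrbitSystem_mem_iff_dvd hsys i k, h1]
    exact (β * γ' * β⁻¹).2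
  obtain ⟨n, hn⟩ := h2
  have hwi : (0 : ℤ) < w i := by exact_mod_cast hsys.1 i
  have hn0 : 0 < n := by
    by_contra hcon
    have : (w i : ℤ) * n ≤ 0 := mul_nonpos_of_nonneg_of_nonpos hwi.le (not_lt.mp hcon)
    omega
  -- `β γ' β⁻¹ = γᵢ ^ n`
  have h3 : β * γ' * β⁻¹ = γ i ^ n.toNat := by
    apply Subtype.ext
    rw [← h1, hn]
    show _ = ((γ i : Γ) : SL(2, ℤ)) ^ n.toNat
    rw [hsys.2.1 i, conj_inv_pow, zpow_mul, zpow_natCast, ← zpow_natCast _ n.toNat,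
      Int.toNat_of_nonneg hn0.le]
  -- primitivity of `γ'`
  have h4 : (β⁻¹ * γ i * β) ^ n.toNat = γ' := by
    rw [conj_inv_pow, ← h3]; group
  have hpos : IsPosParabolic ((β⁻¹ * γ i * β : Γ) : SL(2, ℤ)) := by
    have e1 : ((β⁻¹ * γ i * β : Γ) : SL(2, ℤ)) =
        (h i * (β : SL(2, ℤ)))⁻¹ * T ^ (w i : ℤ) * (h i * (β : SL(2, ℤ))) := by
      show (β : SL(2, ℤ))⁻¹ * ((γ i : Γ) : SL(2, ℤ)) * (β : SL(2, ℤ)) = _
      rw [hsys.2.1 i, zpow_natCast]; group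
    rw [e1, isPosParabolic_conj_T_zpow_iff]
    exact hwi
  have h5 : n.toNat = 1 := hγ'.2 _ _ hpos h4
  refine ⟨i, β⁻¹, ?_⟩
  rw [inv_inv, ← h4, h5, pow_one]

/-- (P5) the `γᵢ` are pairwise non-conjugate (`-1 ∈ Γ`). -/
theorem IsTOrbitSystem_conj_unique (hneg : (-1 : SL(2, ℤ)) ∈ Γ) (hsys : IsTOrbitSystem Γ γ h w)
    (i i' : ι) (g : Γ) (hg : g * γ i' * g⁻¹ = γ i) : i' = i := by
  have hwi : (0 : ℤ) < w i := by exact_mod_cast hsys.1 i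
  -- `hᵢ⁻¹ T^{wᵢ} hᵢ = (hᵢ' g⁻¹)⁻¹ T^{wᵢ'} (hᵢ' g⁻¹)`
  have h1 : (h i)⁻¹ * T ^ (w i : ℤ) * h i =
      (h i' * (g : SL(2, ℤ))⁻¹)⁻¹ * T ^ (w i' : ℤ) * (h i' * (g : SL(2, ℤ))⁻¹) := by
    have e1 : ((γ i : Γ) : SL(2, ℤ)) =
        (g : SL(2, ℤ)) * ((γ i' : Γ) : SL(2, ℤ)) * (g : SL(2, ℤ))⁻¹ := by
      rw [← hg]; rfl
    rw [zpow_natCast, zpow_natCast, ← hsys.2.1 i, e1, hsys.2.1 i']
    group
  obtain ⟨-, n, hn⟩ := eq_of_conj_T_zpow_eq (h i) _ _ _ hwi.ne' h1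
  -- hence `hᵢ' Γ = T^n hᵢ Γ`
  have h2 : ((h i' : SL(2, ℤ)) : SL(2, ℤ) ⧸ Γ) = ((T ^ n * h i : SL(2, ℤ)) : SL(2, ℤ) ⧸ Γ) := by
    have e1 : ((h i' : SL(2, ℤ)) : SL(2, ℤ) ⧸ Γ) =
        ((h i' * (g : SL(2, ℤ))⁻¹ : SL(2, ℤ)) : SL(2, ℤ) ⧸ Γ) := by
      rw [QuotientGroup.eq]
      have : (h i')⁻¹ * (h i' * (g : SL(2, ℤ))⁻¹) = ((g⁻¹ : Γ) : SL(2, ℤ)) := by
        rw [inv_mul_cancel_left]; rfl
      rw [this]
      exact (g⁻¹).2
    rw [e1]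
    rcases hn with hn | hn
    · rw [hn]
    · rw [hn, mk_neg_eq Γ hneg]
  -- reduce `n` modulo `wᵢ`
  have hj0 : 0 ≤ n % (w i : ℤ) := Int.emod_nonneg _ hwi.ne'
  have hj1 : n % (w i : ℤ) < w i := Int.emod_lt_of_pos _ hwi
  have h3 : ((T ^ n * h i : SL(2, ℤ)) : SL(2, ℤ) ⧸ Γ) =
      ((T ^ (n % (w i : ℤ)) * h i : SL(2, ℤ)) : SL(2, ℤ) ⧸ Γ) := by
    rw [mk_T_zpow_mul_eq_iff, IsTOrbitSystem_mem_iff_dvd hsys]
    have : n % (w i : ℤ) - n = (w i : ℤ) * (-(n / (w i : ℤ))) := by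
      have := Int.mul_ediv_add_emod n (w i)
      linarith
    rw [this]
    exact dvd_mul_right _ _
  have hlt : (n % (w i : ℤ)).toNat < w i := by
    have : ((n % (w i : ℤ)).toNat : ℤ) < w i := by rwa [Int.toNat_of_nonneg hj0]
    exact_mod_cast this
  obtain ⟨p, -, hp⟩ := hsys.2.2 ((h i' : SL(2, ℤ)) : SL(2, ℤ) ⧸ Γ)
  have e0 := hp ⟨i', ⟨0, hsys.1 i'⟩⟩ (by simp)
  have e1 := hp ⟨i, ⟨(n % (w i : ℤ)).toNat, hlt⟩⟩ (by
    show ((h i' : SL(2, ℤ)) : SL(2, ℤ) ⧸ Γ) =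
      ((T ^ (n % (w i : ℤ)).toNat * h i : SL(2, ℤ)) : _)
    rw [h2, h3, ← zpow_natCast, Int.toNat_of_nonneg hj0])
  have e2 : (⟨i', ⟨0, hsys.1 i'⟩⟩ : Σ i, Fin (w i)) = ⟨i, ⟨(n % (w i : ℤ)).toNat, hlt⟩⟩ := by
    rw [e0, e1]
  exact congrArg Sigma.fst e2

end OrbitSystem

/-- (CUSP-2) a `T`-orbit system is a cusp system. -/
theorem tOrbitCusp : TOrbitCuspStatement := by
  intro Γ _ hneg ι γ h w hsys
  refine ⟨fun i => IsTOrbitSystem_isPrimPosParabolic hsys i, fun γ' hγ' => ?_⟩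
  obtain ⟨i, g, hg⟩ := IsTOrbitSystem_exists_conj hsys γ' hγ'
  refine ⟨i, ⟨g, hg⟩, fun i' hi' => ?_⟩
  obtain ⟨g', hg'⟩ := hi'
  -- `γ i = (g⁻¹ g') γ i' (g⁻¹ g')⁻¹`
  refine IsTOrbitSystem_conj_unique hneg hsys i i' (g⁻¹ * g') ?_
  have : g' * γ i' * g'⁻¹ = g * γ i * g⁻¹ := by rw [hg, hg']
  calc g⁻¹ * g' * γ i' * (g⁻¹ * g')⁻¹ = g⁻¹ * (g' * γ i' * g'⁻¹) * g := by group
    _ = g⁻¹ * (g * γ i * g⁻¹) * g := by rw [this]
    _ = γ i := by group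


/-! ## CUSP-1 -/

/-- (CUSP-1) `T`-orbit systems exist. -/
theorem tOrbitSystemExists : TOrbitSystemExistsStatement := by
  intro Γ _
  classical
  have : Finite (SL(2, ℤ) ⧸ Γ) := Subgroup.finite_quotient_of_finiteIndex
  let X := SL(2, ℤ) ⧸ Γ
  let ι := MulAction.orbitRel.Quotient (Subgroup.zpowers (T : SL(2, ℤ))) X
  have : Finite ι := Quotient.finite _
  let xr : ι → X := fun i => Quotient.out i
  let h : ι → SL(2, ℤ) := fun i => Quotient.out (xr i)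
  have hh : ∀ i, ((h i : SL(2, ℤ)) : X) = xr i := fun i => QuotientGroup.out_eq' _
  let w : ι → ℕ := fun i => Function.minimalPeriod ((T : SL(2, ℤ)) • ·) (xr i)
  have hw : ∀ i, 0 < w i := fun i =>
    Function.minimalPeriod_pos_of_mem_periodicPts
      (Function.Injective.mem_periodicPts (MulAction.injective (T : SL(2, ℤ))) (xr i))
  -- `T^k • xr i = xr i ↔ w i ∣ k`
  have hper : ∀ (i : ι) (k : ℤ), (T : SL(2, ℤ)) ^ k • xr i = xr i ↔ (w i : ℤ) ∣ k := fun i k =>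
    MulAction.zpow_smul_eq_iff_minimalPeriod_dvd
  have hsmul : ∀ (i : ι) (k : ℤ), (((T : SL(2, ℤ)) ^ k * h i : SL(2, ℤ)) : X) =
      (T : SL(2, ℤ)) ^ k • xr i := by
    intro i k
    rw [← hh i]
    rfl
  have hmem : ∀ i, (h i)⁻¹ * T ^ (w i) * h i ∈ Γ := by
    intro i
    have h1 : (((T : SL(2, ℤ)) ^ (0 : ℤ) * h i : SL(2, ℤ)) : X) =
        (((T : SL(2, ℤ)) ^ (w i : ℤ) * h i : SL(2, ℤ)) : X) := by
      rw [hsmul, hsmul, (hper i _).2 (dvd_refl _), zpow_zero, one_smul]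
    have h2 := (mk_T_zpow_mul_eq_iff Γ (h i) 0 (w i)).1 h1
    simpa using h2
  refine ⟨ι, Fintype.ofFinite ι, fun i => ⟨_, hmem i⟩, h, w, hw, fun i => rfl, fun x => ?_⟩
  -- the orbit of `x`
  have hx : xr (Quotient.mk'' x) ∈ MulAction.orbit (Subgroup.zpowers (T : SL(2, ℤ))) x := by
    have : (Quotient.mk'' (xr (Quotient.mk'' x)) : ι) = Quotient.mk'' x := Quotient.out_eq' _
    exact MulAction.orbitRel_apply.1 (Quotient.exact' this)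
  obtain ⟨⟨t, ht⟩, htx⟩ := hx
  obtain ⟨k, rfl⟩ := Subgroup.mem_zpowers_iff.1 ht
  -- `T^k • x = xr i`, so `x = T^(-k) • xr i`
  set i : ι := Quotient.mk'' x with hi
  have hx' : x = (T : SL(2, ℤ)) ^ (-k) • xr i := by
    have : (T : SL(2, ℤ)) ^ k • x = xr i := htx
    rw [← this, smul_smul, ← zpow_add, neg_add_cancel, zpow_zero, one_smul]
  have hwi : (0 : ℤ) < w i := by exact_mod_cast hw i
  have hj0 : 0 ≤ (-k) % (w i : ℤ) := Int.emod_nonneg _ hwi.ne'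
  have hj1 : (-k) % (w i : ℤ) < w i := Int.emod_lt_of_pos _ hwi
  have hlt : ((-k) % (w i : ℤ)).toNat < w i := by
    have : (((-k) % (w i : ℤ)).toNat : ℤ) < w i := by rwa [Int.toNat_of_nonneg hj0]
    exact_mod_cast this
  have hred : ∀ (a b : ℤ), (T : SL(2, ℤ)) ^ a • xr i = (T : SL(2, ℤ)) ^ b • xr i ↔
      (w i : ℤ) ∣ a - b := by
    intro a b
    rw [← hper i (a - b)]
    constructor
    · intro hab
      rw [sub_eq_neg_add, zpow_add, ← smul_smul, hab, smul_smul, ← zpow_add, neg_add_cancel,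
        zpow_zero, one_smul]
    · intro hab
      conv_lhs => rw [show a = b + (a - b) by ring, zpow_add, ← smul_smul, hab]
  refine ⟨⟨i, ⟨((-k) % (w i : ℤ)).toNat, hlt⟩⟩, ?_, ?_⟩
  · show x = (((T : SL(2, ℤ)) ^ ((-k) % (w i : ℤ)).toNat * h i : SL(2, ℤ)) : X)
    rw [← zpow_natCast, Int.toNat_of_nonneg hj0, hsmul]
    refine hx'.trans ?_
    rw [hred]
    exact Int.dvd_self_sub_emod
  · rintro ⟨i', ⟨j', hj'⟩⟩ hp
    have hp' : x = (T : SL(2, ℤ)) ^ (j' : ℤ) • xr i' := by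
      rw [← hsmul, zpow_natCast]; exact hp
    have hii : i' = i := by
      have h1 : (Quotient.mk'' (xr i') : ι) = i' := Quotient.out_eq' _
      rw [← h1, hi]
      apply Quotient.sound'
      apply MulAction.orbitRel_apply.2
      refine ⟨⟨(T : SL(2, ℤ)) ^ (-(j' : ℤ)), Subgroup.zpow_mem_zpowers _ _⟩, ?_⟩
      show (T : SL(2, ℤ)) ^ (-(j' : ℤ)) • x = xr i'
      rw [hp', smul_smul, ← zpow_add, neg_add_cancel, zpow_zero, one_smul]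
    subst hii
    have hdvd : (w i : ℤ) ∣ (j' : ℤ) - (-k) % (w i : ℤ) := by
      have h1 : (w i : ℤ) ∣ (j' : ℤ) - (-k) := by
        rw [← hred, ← hp', ← hx']
      have h2 : (w i : ℤ) ∣ (-k) - (-k) % (w i : ℤ) := Int.dvd_self_sub_emod
      have h3 := dvd_add h1 h2
      have h4 : (j' : ℤ) - (-k) + ((-k) - (-k) % (w i : ℤ)) = (j' : ℤ) - (-k) % (w i : ℤ) := by
        ring
      rwa [h4] at h3
    have hj'' : (j' : ℤ) < w i := by exact_mod_cast hj'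
    have heq : (j' : ℤ) = (-k) % (w i : ℤ) := by
      obtain ⟨c, hc⟩ := hdvd
      have hc0 : c = 0 := by
        by_contra hne
        rcases lt_or_gt_of_ne hne with hneg | hpos
        · have : (w i : ℤ) * c ≤ -(w i : ℤ) := by nlinarith
          omega
        · have : (w i : ℤ) ≤ (w i : ℤ) * c := by nlinarith
          omega
      rw [hc0, mul_zero] at hc
      omega
    have heq' : j' = ((-k) % (w i : ℤ)).toNat := by
      have := congrArg Int.toNat heq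
      simpa using this
    subst heq'
    rfl

end Fermat.Agent.S41.H769
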